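import Fermat.Agent.S41.T2.Conj

set_option autoImplicit false
set_option linter.style.haveILetI false
set_option linter.unusedSectionVars false

/-!
# S41 / T2 / Res : `κ' (u | Γ₀(Nq)) = a^* (κ u)`, and the statement `T2`
-/

open UpperHalfPlane ModularForm CongruenceSubgroup
open scoped MatrixGroups Manifold

namespace Fermat.Agent.S41.T2

open Fermat.Agent.S24 Fermat.Agent.S16 Fermat.Agent.NV ModularCurve

variable (N q : ℕ) [NeZero N] [NeZero q]

theorem incl_PhiB (a : A0 N) (u w : A0 (N * q))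
    (h : heckeAlphaBar Kb N q (thetaIncl N a) * thetaIncl (N * q) w = thetaIncl (N * q) u) (z : ℍ) :
    (PhiB N a : ℍ → ℂ) z * (PhiB (N * q) w : ℍ → ℂ) z = (PhiB (N * q) u : ℍ → ℂ) z := by
  have h1 : (heckeAlphaBar Kb N q (thetaIncl N a) : LaurentSeries Kb) * (w : LaurentSeries Kb) =
      (u : LaurentSeries Kb) := congrArg (fun t : FN (N * q) => (t : LaurentSeries Kb)) h
  rw [coe_heckeAlphaBar] at h1
  have h2 := congrArg (coeffMap iotaK) h1
  rw [map_mul] at h2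
  have e : ((thetaIncl N a : FN N) : LaurentSeries Kb) = (a : LaurentSeries Kb) := rfl
  rw [e, ← HeckeExp.TInf_one_PhiB N a, ← HeckeExp.TInf_one_PhiB (N * q) w,
    ← HeckeExp.TInf_one_PhiB (N * q) u, ← map_mul] at h2
  have h3 := TInf_injective 1 h2
  exact congrFun (congrArg Subtype.val h3) z

omit [NeZero N] [NeZero q] in
theorem isEqv_incl {χ : Chr N} {y : ℍ → ℂ} (h : IsEqv N χ y) :
    IsEqv (N * q) (χ.comp (inclG N q)) y := by
  intro γ z
  exact h (inclG N q γ) z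

theorem hasChar_alpha {m : ℕ} (hm : 0 < m) {f : FN N} {χ : Chr N} (h : Ch.HasChar N m f χ) :
    Ch.HasChar (N * q) m (heckeAlphaBar Kb N q f) (χ.comp (inclG N q)) := by
  obtain ⟨a, w₀, y, ha, hw₀, hth, ⟨hy, hroot⟩, heqv⟩ := h
  set TT := heckeAlphaBar Kb N q with hTT
  have hTT0 : ∀ x : FN N, x ≠ 0 → TT x ≠ 0 := fun x hx => (map_ne_zero TT).mpr hx
  have hth0 : thetaIncl N a ≠ 0 := fun h0 =>
    ha (thetaIncl_injective N (by rw [h0, map_zero]))
  obtain ⟨u, w, hw, huw⟩ := thetaIncl_exists_div (N * q) (TT (thetaIncl N a))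
  have hw' : thetaIncl (N * q) w ≠ 0 := fun h0 =>
    hw (thetaIncl_injective (N * q) (by rw [h0, map_zero]))
  have huw' : TT (thetaIncl N a) * thetaIncl (N * q) w = thetaIncl (N * q) u := by
    rw [huw, div_mul_cancel₀ _ hw']
  have hu : u ≠ 0 := by
    rintro rfl
    rw [map_zero] at huw'
    exact mul_ne_zero (hTT0 _ hth0) hw' huw'
  obtain ⟨k, rfl⟩ : ∃ k, m = k + 1 := ⟨m - 1, by omega⟩
  refine ⟨u * w ^ k, TT w₀ * thetaIncl (N * q) w, y * (PhiB (N * q) w : ℍ → ℂ),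
    mul_ne_zero hu (pow_ne_zero k hw), mul_ne_zero (hTT0 _ hw₀) hw', ?_, ⟨?_, ?_⟩, ?_⟩
  · rw [map_mul, map_pow, ← huw', hth, map_mul, map_pow]
    ring
  · exact hy.mul (Ch.basic_mdiff (N * q) w)
  · intro z
    have h2 := incl_PhiB N q a u w huw' z
    rw [Ch.basic_mul, Ch.basic_pow, Pi.mul_apply, Pi.mul_apply, Pi.pow_apply, ← h2, mul_pow,
      hroot z]
    ring
  · have := (isEqv_incl N q heqv).mul (Ch.isEqv_PhiB (N * q) w)
    have e : χ.comp (inclG N q) * 1 = χ.comp (inclG N q) := by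
      ext γ
      simp
    rwa [e] at this

theorem kappa_resL (m : ℕ) [NeZero m] (u : S31.Lat N) :
    NV.kappa (N * q) m (resL N q u) = aS N q m (NV.kappa N m u) := by
  rw [NV.kappa_apply N m u, aS_mk, NV.kappa_eq_mk_iff]
  have h := hasChar_alpha N q (Nat.pos_of_ne_zero (NeZero.ne m)) (kappaRep_spec N m u)
  exact h

/-- **T2**. -/
theorem t2 (m : ℕ) [NeZero m] : S41.T2 N q m :=
  fun u => ⟨kappa_resL N q m u, kappa_cnjL N q m u⟩

end Fermat.Agent.S41.T2
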