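import Fermat.Agent.S41.Defs
import Fermat.Agent.NV.Hecke

set_option autoImplicit false
set_option linter.style.haveILetI false
set_option linter.unusedSectionVars false

/-!
# S41 / T2 / Conj : `κ' (u ∘ (d · d⁻¹)) = b^* (κ u)`
-/

open UpperHalfPlane ModularForm CongruenceSubgroup
open scoped MatrixGroups Manifold

namespace Fermat.Agent.S41.T2

open Fermat.Agent.S24 Fermat.Agent.S16 Fermat.Agent.NV ModularCurve

variable (N q : ℕ) [NeZero N] [NeZero q]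

theorem pre_mem_one (a : A0 N) : pre q 0 1 (PhiB N a : ℍ → ℂ) ∈ perSub 1 :=
  pre_mem_perSub (HeckeExp.PhiB_mem_perSub_one N a) (Nat.pos_of_ne_zero (NeZero.ne q)) one_pos
    (one_dvd 1)

theorem TInf_pre_PhiB (a : A0 N) :
    TInf 1 ⟨pre q 0 1 (PhiB N a : ℍ → ℂ), pre_mem_one N q a⟩ =
      qExpand ℂ q (coeffMap iotaK (a : LaurentSeries Kb)) := by
  haveI : NeZero (q * (1 / 1)) := ⟨by simpa using NeZero.ne q⟩
  have h1 := TInf_pre (M := 1) (b := 0) (HeckeExp.PhiB_mem_perSub_one N a)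
    (Nat.pos_of_ne_zero (NeZero.ne q)) one_pos (one_dvd 1)
  have h2 : rootU 1 ((0 : ℕ) : ℤ) = 1 := by rw [Nat.cast_zero, rootU_zero]
  rw [HeckeExp.TInf_one_PhiB, h2, twist_one,
    HeckeExp.qExpand_congr (show q * (1 / 1) = q by simp)] at h1
  exact h1

theorem pre_PhiB (a : A0 N) (u w : A0 (N * q))
    (h : heckeBetaBar Kb N q (thetaIncl N a) * thetaIncl (N * q) w = thetaIncl (N * q) u) (z : ℍ) :
    pre q 0 1 (PhiB N a : ℍ → ℂ) z * (PhiB (N * q) w : ℍ → ℂ) z = (PhiB (N * q) u : ℍ → ℂ) z := by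
  have h1 : (heckeBetaBar Kb N q (thetaIncl N a) : LaurentSeries Kb) * (w : LaurentSeries Kb) =
      (u : LaurentSeries Kb) := congrArg (fun t : FN (N * q) => (t : LaurentSeries Kb)) h
  rw [coe_heckeBetaBar] at h1
  have h2 := congrArg (coeffMap iotaK) h1
  rw [map_mul, coeffMap_qExpand] at h2
  have e : ((thetaIncl N a : FN N) : LaurentSeries Kb) = (a : LaurentSeries Kb) := rfl
  rw [e, ← TInf_pre_PhiB N q a, ← HeckeExp.TInf_one_PhiB (N * q) w,
    ← HeckeExp.TInf_one_PhiB (N * q) u, ← map_mul] at h2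
  have h3 := TInf_injective 1 h2
  exact congrFun (congrArg Subtype.val h3) z

omit [NeZero N] in
theorem pre_smul (γ : Gamma0 (N * q)) (z : ℍ) :
    ofComplex (((q : ℂ) * (((γ : SL(2, ℤ)) • z : ℍ) : ℂ) + ((0 : ℕ) : ℂ)) / ((1 : ℕ) : ℂ)) =
      (conjSL N q γ) • ofComplex (((q : ℂ) * (z : ℂ) + ((0 : ℕ) : ℂ)) / ((1 : ℕ) : ℂ)) := by
  have hq : 0 < q := Nat.pos_of_ne_zero (NeZero.ne q)
  have hco : ∀ x : ℍ, ((ofComplex (((q : ℂ) * (x : ℂ) + ((0 : ℕ) : ℂ)) / ((1 : ℕ) : ℂ)) : ℍ) : ℂ) =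
      (q : ℂ) * x := by
    intro x
    rw [ofComplex_apply_of_im_pos (expandB_im_pos q 0 1 hq one_pos x)]
    simp
  apply UpperHalfPlane.ext
  rw [hco, expandB_coe_smul, expandB_coe_smul, hco]
  have hc : (((conjSL N q γ) 1 0 : ℤ) : ℂ) * (q : ℂ) = (((γ : SL(2, ℤ)) 1 0 : ℤ) : ℂ) := by
    have := q_mul_conjSL_10 N q γ
    rw [mul_comm] at this
    exact_mod_cast this
  have e00 : (conjSL N q γ) 0 0 = (γ : SL(2, ℤ)) 0 0 := rfl
  have e01 : (conjSL N q γ) 0 1 = q * (γ : SL(2, ℤ)) 0 1 := rfl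
  have e11 : (conjSL N q γ) 1 1 = (γ : SL(2, ℤ)) 1 1 := rfl
  rw [← mul_assoc (((conjSL N q γ) 1 0 : ℤ) : ℂ), hc, e00, e01, e11]
  push_cast
  ring

omit [NeZero N] in
theorem isEqv_pre {χ : Chr N} {y : ℍ → ℂ} (h : IsEqv N χ y) :
    IsEqv (N * q) (χ.comp (conjG N q)) (pre q 0 1 y) := by
  intro γ z
  show y (ofComplex _) = _ * y (ofComplex _)
  rw [pre_smul]
  exact h (conjG N q γ) _

theorem hasChar_beta {m : ℕ} (hm : 0 < m) {f : FN N} {χ : Chr N} (h : Ch.HasChar N m f χ) :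
    Ch.HasChar (N * q) m (heckeBetaBar Kb N q f) (χ.comp (conjG N q)) := by
  obtain ⟨a, w₀, y, ha, hw₀, hth, ⟨hy, hroot⟩, heqv⟩ := h
  set TT := heckeBetaBar Kb N q with hTT
  have hTT0 : ∀ x : FN N, x ≠ 0 → TT x ≠ 0 := fun x hx => (map_ne_zero TT).mpr hx
  have hth0 : thetaIncl N a ≠ 0 := fun h0 =>
    ha (thetaIncl_injective N (by rw [h0, map_zero]))
  obtain ⟨u, w, hw, huw⟩ := thetaIncl_exists_div (N * q) (TT (thetaIncl N a))
  have hw' : thetaIncl (N * q) w ≠ 0 := fun h0 =>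
    hw (thetaIncl_injective (N * q) (by rw [h0, map_zero]))
  have huw' : TT (thetaIncl N a) * thetaIncl (N * q) w = thetaIncl (N * q) u := by
    rw [huw, div_mul_cancel₀ _ hw']
  have hu : u ≠ 0 := by
    rintro rfl
    rw [map_zero] at huw'
    exact mul_ne_zero (hTT0 _ hth0) hw' huw'
  obtain ⟨k, rfl⟩ : ∃ k, m = k + 1 := ⟨m - 1, by omega⟩
  refine ⟨u * w ^ k, TT w₀ * thetaIncl (N * q) w, pre q 0 1 y * (PhiB (N * q) w : ℍ → ℂ),
    mul_ne_zero hu (pow_ne_zero k hw), mul_ne_zero (hTT0 _ hw₀) hw', ?_, ⟨?_, ?_⟩, ?_⟩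
  · rw [map_mul, map_pow, ← huw', hth, map_mul, map_pow]
    ring
  · exact (holB_mdiff_pre hy 0 (Nat.pos_of_ne_zero (NeZero.ne q)) one_pos).mul
      (Ch.basic_mdiff (N * q) w)
  · intro z
    have h1 : pre q 0 1 y ^ (k + 1) = pre q 0 1 (PhiB N a : ℍ → ℂ) := by
      rw [← level_pre_pow]
      congr 1
      funext z
      exact hroot z
    have h2 := pre_PhiB N q a u w huw' z
    rw [Ch.basic_mul, Ch.basic_pow, Pi.mul_apply, Pi.mul_apply, Pi.pow_apply, ← h2, mul_pow,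
      ← Pi.pow_apply, h1]
    ring
  · have := (isEqv_pre N q heqv).mul (Ch.isEqv_PhiB (N * q) w)
    have e : χ.comp (conjG N q) * 1 = χ.comp (conjG N q) := by
      ext γ
      simp
    rwa [e] at this

theorem kappa_cnjL (m : ℕ) [NeZero m] (u : S31.Lat N) :
    NV.kappa (N * q) m (cnjL N q u) = bS N q m (NV.kappa N m u) := by
  rw [NV.kappa_apply N m u, bS_mk, NV.kappa_eq_mk_iff]
  have h := hasChar_beta N q (Nat.pos_of_ne_zero (NeZero.ne m)) (kappaRep_spec N m u)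
  exact h

end Fermat.Agent.S41.T2
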