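import Fermat.Agent.S41.Defs
import Fermat.Agent.NV.HeckeExp
import Fermat.Agent.NV.Final
import Fermat.Agent.S34.Mod.EtaExp

set_option autoImplicit false
set_option linter.unusedSectionVars false

/-!
# S41, task T2: `κ` is compatible with the two level maps

`κ_{Nq} (u|Γ₀(Nq)) = a^* (κ_N u)` and `κ_{Nq} (u (d · d⁻¹)) = b^* (κ_N u)`.
-/

noncomputable section

namespace Fermat.Agent.S41.T2alt

open UpperHalfPlane ModularForm CongruenceSubgroup ModularCurve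
open scoped MatrixGroups Manifold
open Fermat.Agent.S24 Fermat.Agent.S16 Fermat.Agent.NV Fermat.Agent.GES Fermat.Agent.NEW

variable (N q : ℕ) [NeZero N] [NeZero q]

theorem PhiB_eq_of_coe {N M : ℕ} [NeZero N] [NeZero M] (a : A0 N) (b : A0 M)
    (h : (a : LaurentSeries Kb) = b) : (PhiB N a : ℍ → ℂ) = (PhiB M b : ℍ → ℂ) := by
  have h1 := HeckeExp.TInf_one_PhiB N a
  have h2 := HeckeExp.TInf_one_PhiB M b
  rw [h, ← h2] at h1
  exact congrArg Subtype.val (TInf_injective 1 h1)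

theorem PhiB_eq_pre_of_coe {N M : ℕ} [NeZero N] [NeZero M] (a : A0 N) (b : A0 M)
    (h : (b : LaurentSeries Kb) = qExpand Kb q a) :
    (PhiB M b : ℍ → ℂ) = pre q 0 1 (PhiB N a : ℍ → ℂ) := by
  have h1 := HeckeExp.TInf_one_PhiB N a
  have h2 := HeckeExp.TInf_one_PhiB M b
  have h3 := Mod.EtaExp.TInf_pre (HeckeExp.PhiB_mem_perSub_one N a) q
  rw [h1, ← coeffMap_qExpand, ← h, ← h2] at h3
  exact (congrArg Subtype.val (TInf_injective 1 h3)).symm

theorem A0_mono {N M : ℕ} (h : N ∣ M) : A0 N ≤ A0 M :=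
  Algebra.adjoin_mono (fun _ ⟨d, hd, hy⟩ => ⟨d, hd.trans h, hy⟩)

theorem coe_thetaIncl' (M : ℕ) [NeZero M] (a : A0 M) :
    ((thetaIncl M a : FN M) : LaurentSeries Kb) = (a : LaurentSeries Kb) := rfl

/-- `A0 N → A0 (N q)`. -/
def upA (a : A0 N) : A0 (N * q) := ⟨a.1, A0_mono (Dvd.intro q rfl) a.2⟩

omit [NeZero N] [NeZero q] in
theorem coe_upA (a : A0 N) : ((upA N q a : A0 (N * q)) : LaurentSeries Kb) = a :=
  Subtype.coe_mk _ _

theorem thetaIncl_upA (a : A0 N) :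
    thetaIncl (N * q) (upA N q a) = heckeAlphaBar Kb N q (thetaIncl N a) := by
  apply Subtype.ext
  rw [coe_heckeAlphaBar, coe_thetaIncl', coe_thetaIncl', coe_upA]

theorem hasChar_alpha {m : ℕ} {f : FN N} {χ : Chr N} (h : Ch.HasChar N m f χ) :
    Ch.HasChar (N * q) m (heckeAlphaBar Kb N q f) (χ.comp (inclG N q)) := by
  obtain ⟨a, w, h, ha, hw, hth, ⟨hd, hr⟩, he⟩ := h
  refine ⟨upA N q a, heckeAlphaBar Kb N q w, h, ?_, ?_, ?_, ⟨hd, ?_⟩, ?_⟩
  · intro h0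
    have h1 : (a : LaurentSeries Kb) = 0 := by
      rw [← coe_upA N q a, h0, ZeroMemClass.coe_zero]
    apply ha
    apply Subtype.ext
    rw [h1, ZeroMemClass.coe_zero]
  · rw [Ne, map_eq_zero]; exact hw
  · rw [thetaIncl_upA, hth, map_mul, map_pow]
  · intro z
    rw [hr z, PhiB_eq_of_coe a (upA N q a) (coe_upA N q a).symm]
  · intro γ z
    have := he (inclG N q γ) z
    rw [coe_inclG] at this
    rw [this, MonoidHom.comp_apply]

theorem Jser_eq {d : ℕ} [NeZero d] : Jser d = qExpand Kb d (jqModC Kb) := by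
  rw [Jser, dif_neg (NeZero.ne d)]
  rfl

theorem qExpand_mem_A0' (x : LaurentSeries Kb) (hx : x ∈ A0 N) :
    qExpand Kb q x ∈ A0 (N * q) := by
  induction hx using Algebra.adjoin_induction with
  | mem x hx =>
    obtain ⟨d, hd, rfl⟩ := hx
    have : NeZero d := ⟨fun h => NeZero.ne N (by rw [h] at hd; exact zero_dvd_iff.mp hd)⟩
    have h1 : qExpand Kb q (Jser d) = Jser (q * d) := by
      rw [Jser_eq, Jser_eq, GES.qExpand_mul']
    rw [h1]
    exact Jser_mem_A0 (by rw [mul_comm]; exact Nat.mul_dvd_mul_right hd q)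
  | algebraMap r =>
    rw [algebraMap_laurentSeries_eq_single, qExpand_single, mul_zero,
      ← algebraMap_laurentSeries_eq_single]
    exact Subalgebra.algebraMap_mem _ r
  | add x y _ _ hx hy => rw [map_add]; exact add_mem hx hy
  | mul x y _ _ hx hy => rw [map_mul]; exact mul_mem hx hy

/-- `A0 N → A0 (N q)`, `Q ↦ Q ^ q`. -/
def upB (a : A0 N) : A0 (N * q) := ⟨qExpand Kb q a.1, qExpand_mem_A0' N q a.1 a.2⟩

theorem coe_upB (a : A0 N) :
    ((upB N q a : A0 (N * q)) : LaurentSeries Kb) = qExpand Kb q (a : LaurentSeries Kb) :=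
  Subtype.coe_mk _ _

theorem thetaIncl_upB (a : A0 N) :
    thetaIncl (N * q) (upB N q a) = heckeBetaBar Kb N q (thetaIncl N a) := by
  apply Subtype.ext
  rw [coe_heckeBetaBar, coe_thetaIncl', coe_thetaIncl', coe_upB]

theorem smul_pre (γ : Gamma0 (N * q)) (z : ℍ) :
    (ofComplex (((q : ℂ) * (((γ : SL(2, ℤ)) • z : ℍ) : ℂ) + (0 : ℕ)) / (1 : ℕ)) : ℍ) =
      (conjSL N q γ) • (ofComplex (((q : ℂ) * (z : ℂ) + (0 : ℕ)) / (1 : ℕ)) : ℍ) := by
  have hq : 0 < q := Nat.pos_of_ne_zero (NeZero.ne q)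
  have hq0 : (q : ℂ) ≠ 0 := by exact_mod_cast hq.ne'
  apply UpperHalfPlane.ext
  rw [expandB_coe_ofComplex q 0 1 hq one_pos, UpperHalfPlane.coe_specialLinearGroup_apply,
    UpperHalfPlane.coe_specialLinearGroup_apply, expandB_coe_ofComplex q 0 1 hq one_pos]
  have h10 : ((γ : SL(2, ℤ)) 1 0 : ℂ) = (q : ℂ) * ((conjSL N q γ) 1 0 : ℂ) := by
    have := q_mul_conjSL_10 N q γ
    exact_mod_cast this.symm
  have e00 : (conjSL N q γ) 0 0 = (γ : SL(2, ℤ)) 0 0 := rfl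
  have e01 : (conjSL N q γ) 0 1 = q * (γ : SL(2, ℤ)) 0 1 := rfl
  have e11 : (conjSL N q γ) 1 1 = (γ : SL(2, ℤ)) 1 1 := rfl
  rw [e00, e01, e11]
  simp only [eq_intCast, Complex.ofReal_intCast, Nat.cast_zero, Nat.cast_one, add_zero, div_one,
    Int.cast_mul, Int.cast_natCast]
  rw [h10]
  have e : (q : ℂ) * ((conjSL N q γ) 1 0 : ℂ) * (z : ℂ) + ((γ : SL(2, ℤ)) 1 1 : ℂ) =
      ((conjSL N q γ) 1 0 : ℂ) * ((q : ℂ) * (z : ℂ)) + ((γ : SL(2, ℤ)) 1 1 : ℂ) := by ring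
  rw [e, mul_div_assoc']
  congr 1
  push_cast
  ring

theorem pre_eqv (h : ℍ → ℂ) (χ : Chr N) (hh : IsEqv N χ h) :
    IsEqv (N * q) (χ.comp (conjG N q)) (pre q 0 1 h) := by
  intro γ z
  have := hh (conjG N q γ) (ofComplex (((q : ℂ) * (z : ℂ) + (0 : ℕ)) / (1 : ℕ)) : ℍ)
  rw [coe_conjG, ← smul_pre] at this
  exact this

theorem hasChar_beta {m : ℕ} {f : FN N} {χ : Chr N} (h : Ch.HasChar N m f χ) :
    Ch.HasChar (N * q) m (heckeBetaBar Kb N q f) (χ.comp (conjG N q)) := by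
  have hq : 0 < q := Nat.pos_of_ne_zero (NeZero.ne q)
  obtain ⟨a, w, h, ha, hw, hth, ⟨hd, hr⟩, he⟩ := h
  refine ⟨upB N q a, heckeBetaBar Kb N q w, pre q 0 1 h, ?_, ?_, ?_,
    ⟨holB_mdiff_pre hd 0 hq one_pos, ?_⟩, pre_eqv N q h χ he⟩
  · intro h0
    have h1 : qExpand Kb q (a : LaurentSeries Kb) = 0 := by
      rw [← coe_upB N q a, h0, ZeroMemClass.coe_zero]
    apply ha
    apply Subtype.ext
    rw [ZeroMemClass.coe_zero]
    exact (map_eq_zero_iff _ (qExpand_injective q)).mp h1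
  · rw [Ne, map_eq_zero]; exact hw
  · rw [thetaIncl_upB, hth, map_mul, map_pow]
  · intro z
    rw [PhiB_eq_pre_of_coe q a (upB N q a) (coe_upB N q a)]
    exact hr _

theorem expChr_resL (m : ℕ) (u : S31.Lat N) :
    expChr (N * q) m (resL N q u).1 = (expChr N m u.1).comp (inclG N q) := by
  ext γ
  rfl

theorem expChr_cnjL (m : ℕ) (u : S31.Lat N) :
    expChr (N * q) m (cnjL N q u).1 = (expChr N m u.1).comp (conjG N q) := by
  ext γ
  rfl

/-- **T2**: `κ` is compatible with the two level maps. -/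
theorem t2 (m : ℕ) [NeZero m] : S41.T2 N q m := by
  intro u
  constructor
  · rw [NV.kappa_apply N m u, aS_mk, NV.kappa_eq_mk_iff, expChr_resL]
    exact hasChar_alpha N q (NV.kappaRep_spec N m u)
  · rw [NV.kappa_apply N m u, bS_mk, NV.kappa_eq_mk_iff, expChr_cnjL]
    exact hasChar_beta N q (NV.kappaRep_spec N m u)

end Fermat.Agent.S41.T2alt
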